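/-
S44 cell [D-DICH] (helper8), file 1: THE DICTIONARY between a valuation subring `V` of `E = Frac S`
(`S` Dedekind) which is the localisation of `S` at the prime `v.asIdeal`, with a uniformiser `ϖ`
(every non-unit of `V` is `ϖ · b`, `b ∈ V`), and the `v`-adic valuation of Mathlib.

* `s44di_mem_iff`      : `x ∈ V ↔ v.valuation E x ≤ 1`
* `s44di_nonunits_iff` : `x ∈ V.nonunits ↔ v.valuation E x < 1`
* `s44di_val_unif`     : `v.valuation E ϖ = exp (-1)`
* `s44di_le_exp_iff`   : `v.valuation E x ≤ exp (-n) ↔ ∃ b ∈ V, x = ϖ ^ n * b`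
* `s44di_U_eq`         : the principal-unit groups `s44d_U` of the two valuations agree.

Mathlib + `S44/Dich/Units` only.  Prefix `s44di_`.
-/
import Mathlib
import Fermat.Agent.S44.Dich.Units

set_option autoImplicit false

namespace Fermat.Agent.S44

open IsDedekindDomain WithZero

theorem s44di_lt_one_iff (x : ℤᵐ⁰) : x < 1 ↔ x ≤ exp (-1 : ℤ) := by
  induction x using WithZero.expRecOn with
  | zero => simp
  | exp a =>
    rw [← exp_zero, exp_lt_exp, exp_le_exp]
    omega

section Dict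

variable {S E : Type*} [CommRing S] [IsDedekindDomain S] [Field E] [Algebra S E]
  [IsFractionRing S E] (v : HeightOneSpectrum S) (V : ValuationSubring E)

/-- `V` is the localisation of `S` at `v.asIdeal`. -/
structure s44di_IsLoc : Prop where
  le : ∀ s : S, algebraMap S E s ∈ V
  centre : ∀ s : S, algebraMap S E s ∈ V.nonunits ↔ s ∈ v.asIdeal
  bridge : ∀ a ∈ V, ∃ x t : S, t ∉ v.asIdeal ∧ a * algebraMap S E t = algebraMap S E x

variable {v V}

theorem s44di_val_eq (h : s44di_IsLoc v V) {a : E} (ha : a ∈ V) :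
    ∃ x t : S, t ∉ v.asIdeal ∧ a * algebraMap S E t = algebraMap S E x ∧
      v.valuation E a = v.valuation E (algebraMap S E x) := by
  obtain ⟨x, t, ht, hxt⟩ := h.bridge a ha
  have h1 : v.valuation E (algebraMap S E t) = 1 :=
    (HeightOneSpectrum.valuation_eq_one_iff_notMem v).2 ht
  exact ⟨x, t, ht, hxt, by rw [← hxt, map_mul, h1, mul_one]⟩

theorem s44di_val_le_one (h : s44di_IsLoc v V) {a : E} (ha : a ∈ V) : v.valuation E a ≤ 1 := by
  obtain ⟨x, t, -, -, h2⟩ := s44di_val_eq h ha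
  rw [h2]
  exact v.valuation_le_one x

theorem s44di_val_lt_one (h : s44di_IsLoc v V) {a : E} (ha : a ∈ V.nonunits) :
    v.valuation E a < 1 := by
  have ha' := (ValuationSubring.mem_nonunits_iff V).1 ha
  have haV : a ∈ V := (V.valuation_le_one_iff a).1 ha'.le
  obtain ⟨x, t, -, hxt, h2⟩ := s44di_val_eq h haV
  have hx : algebraMap S E x ∈ V.nonunits := by
    rw [ValuationSubring.mem_nonunits_iff V, ← hxt, map_mul]
    have ht : V.valuation (algebraMap S E t) ≤ 1 := (V.valuation_le_one_iff _).2 (h.le t)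
    calc V.valuation a * V.valuation (algebraMap S E t) ≤ V.valuation a * 1 := by gcongr
      _ = V.valuation a := mul_one _
      _ < 1 := ha'
  rw [h2]
  exact (v.valuation_lt_one_iff_mem x).2 ((h.centre x).1 hx)

theorem s44di_mem_iff (h : s44di_IsLoc v V) (a : E) : a ∈ V ↔ v.valuation E a ≤ 1 := by
  refine ⟨s44di_val_le_one h, fun ha => ?_⟩
  by_contra hn
  have h0 : a ≠ 0 := by rintro rfl; exact hn V.zero_mem
  have h1 : a⁻¹ ∈ V.nonunits := by
    rw [ValuationSubring.mem_nonunits_iff_or]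
    right
    rwa [inv_inv]
  have h2 := s44di_val_lt_one h h1
  rw [map_inv₀] at h2
  have h3 : v.valuation E a ≠ 0 := (Valuation.ne_zero_iff _).2 h0
  have h4 : 1 < v.valuation E a := by
    rwa [inv_lt_one₀ (zero_lt_iff.2 h3)] at h2
  exact absurd ha (not_le.2 h4)

theorem s44di_nonunits_iff (h : s44di_IsLoc v V) (a : E) :
    a ∈ V.nonunits ↔ v.valuation E a < 1 := by
  refine ⟨s44di_val_lt_one h, fun ha => ?_⟩
  rw [ValuationSubring.mem_nonunits_iff_or]
  by_cases h0 : a = 0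
  · exact Or.inl h0
  · right
    intro hinv
    have h1 := s44di_val_le_one h hinv
    rw [map_inv₀] at h1
    have h3 : v.valuation E a ≠ 0 := (Valuation.ne_zero_iff _).2 h0
    have h4 : 1 ≤ v.valuation E a := by
      rwa [inv_le_one₀ (zero_lt_iff.2 h3)] at h1
    exact absurd ha (not_lt.2 h4)

variable {ϖ : E}

theorem s44di_val_unif (h : s44di_IsLoc v V)
    (hunif : ∀ a, a ∈ V.nonunits ↔ ∃ b ∈ V, a = ϖ * b) :
    v.valuation E ϖ = exp (-1 : ℤ) := by
  have h1 : ϖ ∈ V.nonunits := (hunif ϖ).2 ⟨1, V.one_mem, (mul_one ϖ).symm⟩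
  have h2 : v.valuation E ϖ ≤ exp (-1 : ℤ) :=
    (s44di_lt_one_iff _).1 (s44di_val_lt_one h h1)
  refine le_antisymm h2 ?_
  obtain ⟨u, hu⟩ := v.valuation_exists_uniformizer' E
  have h3 : algebraMap S E u ∈ V.nonunits := by
    rw [s44di_nonunits_iff h, hu, ← exp_zero, exp_lt_exp]
    norm_num
  obtain ⟨b, hb, hub⟩ := (hunif _).1 h3
  have h4 := s44di_val_le_one h hb
  calc exp (-1 : ℤ) = v.valuation E (algebraMap S E u) := hu.symm
    _ = v.valuation E ϖ * v.valuation E b := by rw [hub, map_mul]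
    _ ≤ v.valuation E ϖ * 1 := by gcongr
    _ = v.valuation E ϖ := mul_one _

theorem s44di_le_exp_iff (h : s44di_IsLoc v V)
    (hunif : ∀ a, a ∈ V.nonunits ↔ ∃ b ∈ V, a = ϖ * b) (n : ℕ) (x : E) :
    v.valuation E x ≤ exp (-(n : ℤ)) ↔ ∃ b ∈ V, x = ϖ ^ n * b := by
  have hϖ := s44di_val_unif h hunif
  have hϖ0 : ϖ ≠ 0 := by
    intro h0
    rw [h0, map_zero] at hϖ
    exact WithZero.exp_ne_zero hϖ.symm
  constructor
  · intro hx
    refine ⟨x / ϖ ^ n, ?_, by field_simp⟩
    rw [s44di_mem_iff h, map_div₀, map_pow, hϖ, ← exp_nsmul, smul_neg, nsmul_one]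
    rw [div_le_one₀ (by simp)]
    exact hx
  · rintro ⟨b, hb, rfl⟩
    rw [map_mul, map_pow, hϖ, ← exp_nsmul, smul_neg, nsmul_one]
    calc exp (-(n : ℤ)) * v.valuation E b ≤ exp (-(n : ℤ)) * 1 := by
          gcongr
          exact s44di_val_le_one h hb
      _ = exp (-(n : ℤ)) := mul_one _

/-- The principal-unit groups of the `v`-adic valuation and of `V.valuation` agree. -/
theorem s44di_U_eq (h : s44di_IsLoc v V)
    (hunif : ∀ a, a ∈ V.nonunits ↔ ∃ b ∈ V, a = ϖ * b) (n : ℕ) :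
    s44d_U (v.valuation E) (exp (-(n : ℤ))) = s44d_U V.valuation (V.valuation ϖ ^ n) := by
  have hϖ := s44di_val_unif h hunif
  have hϖ0 : ϖ ≠ 0 := by
    intro h0
    rw [h0, map_zero] at hϖ
    exact WithZero.exp_ne_zero hϖ.symm
  ext a
  rw [s44d_mem_U, s44d_mem_U, ← s44di_nonunits_iff h, ← ValuationSubring.mem_nonunits_iff V,
    s44di_le_exp_iff h hunif]
  refine and_congr_left fun _ => ?_
  rw [← map_pow]
  constructor
  · rintro ⟨b, hb, hab⟩
    rw [hab, map_mul]
    calc V.valuation (ϖ ^ n) * V.valuation b ≤ V.valuation (ϖ ^ n) * 1 := by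
          gcongr
          exact (V.valuation_le_one_iff b).2 hb
      _ = V.valuation (ϖ ^ n) := mul_one _
  · intro hle
    refine ⟨((a : E) - 1) / ϖ ^ n, ?_, by field_simp⟩
    rw [← V.valuation_le_one_iff, map_div₀]
    have h1 : V.valuation (ϖ ^ n) ≠ 0 := (Valuation.ne_zero_iff _).2 (pow_ne_zero n hϖ0)
    rw [div_le_one₀ (zero_lt_iff.2 h1)]
    exact hle

end Dict

end Fermat.Agent.S44
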